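/-
S55 / FORMAL-F1 (helper175) : the definitions used in the instantiation of `Formal/F1Abs.lean`.
`pre` (functoriality of `HomMod` in the first variable), `homOfInv`, `homOfInv'` (invariants of
`HomMod` are equivariant maps), `YtoHom`, `ZtoHom`, the local pairings `Bq`.
-/
import Fermat.Agent.S55.Formal.Contract
import Fermat.Agent.S55.Coh.H0

set_option autoImplicit false

namespace Fermat.Agent.S55.F1

section HomFun

variable {G : Type} [Group G]
variable {A : Type} [AddCommGroup A] [DistribMulAction G A]
variable {B : Type} [AddCommGroup B] [DistribMulAction G B]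

/-- Precomposition `Hom(B, T) → Hom(A, T)` with an equivariant map `φ : A → B`. -/
def pre (T : Type) [AddCommGroup T] [DistribMulAction G T] (φ : A →+[G] B) :
    HomMod B T →+[G] HomMod A T where
  toFun f := HomMod.of ((HomMod.toHom f).comp (φ : A →+ B))
  map_smul' g f := by
    ext a
    show g • f (g⁻¹ • φ a) = g • f (φ (g⁻¹ • a))
    rw [map_smul φ]
  map_zero' := rfl
  map_add' _ _ := rfl

variable {T : Type} [AddCommGroup T] [DistribMulAction G T]

@[simp] theorem pre_apply (φ : A →+[G] B) (f : HomMod B T) (a : A) : pre T φ f a = f (φ a) := rfl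

end HomFun

section Inv

variable {G H : Type} [Group G] [Group H] (f : H →* G)
variable {N : Type} [AddCommGroup N] [DistribMulAction G N]
variable {T : Type} [AddCommGroup T] [DistribMulAction G T]

/-- The element of `Hom(N, T)` underlying an element of `ResMod f (Hom(N, T))`. -/
def undl (y : ResMod f (HomMod N T)) : HomMod N T := (ResMod.toRes f).symm y

omit [DistribMulAction G N] [DistribMulAction G T] in
theorem undl_add (y y' : ResMod f (HomMod N T)) : undl f (y + y') = undl f y + undl f y' :=
  map_add (ResMod.toRes f).symm y y'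

theorem undl_smul (h : H) (y : ResMod f (HomMod N T)) : undl f (h • y) = f h • undl f y := rfl

/-- An `H`-invariant element of `Hom(N, T)` is an `H`-equivariant map. -/
def homOfInv (y : inv0 H (ResMod f (HomMod N T))) : ResMod f N →+[H] ResMod f T where
  toFun n := ResMod.toRes f (undl f (y : ResMod f (HomMod N T)) ((ResMod.toRes f).symm n))
  map_smul' h n := by
    have hy : f h • undl f (y : ResMod f (HomMod N T)) = undl f (y : ResMod f (HomMod N T)) := by
      rw [← undl_smul, y.2 h]
    have h1 := DFunLike.congr_fun hy (f h • (ResMod.toRes f).symm n)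
    rw [HomMod.smul_apply, inv_smul_smul] at h1
    show ResMod.toRes f (undl f (y : ResMod f (HomMod N T)) (f h • (ResMod.toRes f).symm n)) =
      ResMod.toRes f (f h • undl f (y : ResMod f (HomMod N T)) ((ResMod.toRes f).symm n))
    rw [h1]
  map_zero' := by
    show ResMod.toRes f (undl f (y : ResMod f (HomMod N T)) 0) = 0
    rw [map_zero, map_zero]
  map_add' a b := by
    show ResMod.toRes f (undl f (y : ResMod f (HomMod N T))
      ((ResMod.toRes f).symm a + (ResMod.toRes f).symm b)) = _
    rw [map_add, map_add]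

theorem homOfInv_apply (y : inv0 H (ResMod f (HomMod N T))) (n : ResMod f N) :
    homOfInv f y n =
      ResMod.toRes f (undl f (y : ResMod f (HomMod N T)) ((ResMod.toRes f).symm n)) := rfl

theorem homOfInv_add (y y' : inv0 H (ResMod f (HomMod N T))) (n : ResMod f N) :
    homOfInv f (y + y') n = homOfInv f y n + homOfInv f y' n := by
  rw [homOfInv_apply, homOfInv_apply, homOfInv_apply, AddSubgroup.coe_add, undl_add,
    HomMod.add_apply, map_add]

/-- Global version. -/
def homOfInv' (z : inv0 G (HomMod N T)) : N →+[G] T where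
  toFun n := (z : HomMod N T) n
  map_smul' g n := by
    have h1 := DFunLike.congr_fun (z.2 g) (g • n)
    rw [HomMod.smul_apply, inv_smul_smul] at h1
    exact h1.symm
  map_zero' := map_zero (z : HomMod N T)
  map_add' a b := map_add (z : HomMod N T) a b

theorem homOfInv'_apply (z : inv0 G (HomMod N T)) (n : N) : homOfInv' z n = (z : HomMod N T) n :=
  rfl

end Inv

section Pair

variable {S : Finset Nat.Primes} {p : ℕ} (q : Nat.Primes)
variable (N : Type) [AddCommGroup N] [DistribMulAction GQ N]

/-- `H^0_q(Hom(N, μ)) → Hom_{G_q}(N, μ)`. -/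
noncomputable def YtoHom (y : Hloc q (HomMod N (Mu p)) 0) : HomLoc q N (Mu p) :=
  homOfInv (ιv q) (Hsm.H0equiv y)

/-- `H^0_S(Hom(N, μ)) → Hom_G(N, μ)`. -/
noncomputable def ZtoHom (z : Hsm (lvlS S) (HomMod N (Mu p)) 0) : N →+[GQ] Mu p :=
  homOfInv' (Hsm.H0equiv z)

theorem YtoHom_add (y y' : Hloc q (HomMod N (Mu p)) 0) (n : ResMod (ιv q) N) :
    YtoHom q N (y + y') n = YtoHom q N y n + YtoHom q N y' n := by
  unfold YtoHom
  rw [map_add]
  exact homOfInv_add (ιv q) _ _ n

/-- The local pairing `H^2_q(N) × H^0_q(Hom(N, μ)) → ZMod p`. -/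
noncomputable def Bq (t : Hloc q (Mu p) 2 →+ ZMod p) :
    Hloc q N 2 →+ Hloc q (HomMod N (Mu p)) 0 →+ ZMod p :=
  AddMonoidHom.mk'
    (fun x => AddMonoidHom.mk' (fun y => t (Hsm.map (YtoHom q N y) 2 x))
      (fun y y' => by
        rw [Hsm.map_add' (φ := YtoHom q N y) (ψ := YtoHom q N y') (YtoHom_add q N y y') 2 x,
          map_add]))
    (fun x x' => by
      ext y
      simp)

theorem Bq_apply (t : Hloc q (Mu p) 2 →+ ZMod p) (x : Hloc q N 2)
    (y : Hloc q (HomMod N (Mu p)) 0) : Bq q N t x y = t (Hsm.map (YtoHom q N y) 2 x) := rfl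

end Pair

end Fermat.Agent.S55.F1
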