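/-
S55 / FORMAL-F1, section `Coef`: stability properties of coefficient modules.
-/
import Fermat.Agent.S55.Formal.F1.Defs
import Fermat.Agent.S55.Coh.H0
import Fermat.Agent.S55.Coh.SetDefs

set_option autoImplicit false

namespace Fermat.Agent.S55.F1

section Coef

variable {S : Finset Nat.Primes} {p : ℕ}
variable {N : Type} [AddCommGroup N] [DistribMulAction GQ N]

theorem isCoef_indMod (hN : IsCoef S p N) {U : Subgroup GQ} (hU : U ∈ (lvlS S).carrier) :
    IsCoef S p (IndMod (GQ ⧸ U) N) := by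
  have := hN.finite
  have := hN.smooth
  have : U.FiniteIndex := (lvlS S).finiteIndex U hU
  have : Finite (GQ ⧸ U) := Subgroup.finite_quotient_of_finiteIndex
  have : SmoothSet (lvlS S) (GQ ⧸ U) := SmoothSet.quotient (lvlS S) (LevelSys.isOpen_of_mem hU)
  refine ⟨?_, ?_, inferInstance⟩
  · exact Finite.of_equiv _ (IndMod.funEquiv (X := GQ ⧸ U) (A := N)).symm.toEquiv
  · intro f
    ext x
    exact hN.ptors (f x)

theorem isCoef_sub (hN : IsCoef S p N) (B : GSub GQ N) : IsCoef S p B.Mod := by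
  have := hN.finite
  have := hN.smooth
  refine ⟨Finite.of_injective _ B.incl_injective, ?_, inferInstance⟩
  intro x
  apply B.incl_injective
  rw [map_nsmul, map_zero]
  exact hN.ptors _

theorem smooth_loc (hN : IsCoef S p N) (q : Nat.Primes) :
    Smooth (lvlLoc q) (ResMod (ιv q) N) := by
  have := hN.smooth
  have : Smooth lvlAll N := Smooth.of_le (lvlS_le_lvlAll S)
  show Smooth (lvlAll.comap (ιv q)) _
  infer_instance

theorem sum_surjective (U : Subgroup GQ) [Finite (GQ ⧸ U)] :
    Function.Surjective (IndMod.sum (G := GQ) (GQ ⧸ U) N) := by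
  classical
  intro m
  refine ⟨IndMod.of fun x => if x = ((1 : GQ) : GQ ⧸ U) then m else 0, ?_⟩
  rw [IndMod.sum_def, finsum_eq_single _ ((1 : GQ) : GQ ⧸ U)]
  · show (if ((1 : GQ) : GQ ⧸ U) = ((1 : GQ) : GQ ⧸ U) then m else 0) = m
    rw [if_pos rfl]
  · intro x hx
    show (if x = ((1 : GQ) : GQ ⧸ U) then m else 0) = 0
    rw [if_neg hx]

theorem finite_Hloc_zero (hN : IsCoef S p N) (q : Nat.Primes) : Finite (Hloc q N 0) := by
  have := hN.finite
  have : Finite (ResMod (ιv q) N) := Finite.of_equiv N (ResMod.toRes (ιv q)).toEquiv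
  exact Finite.of_equiv _ (Hsm.H0equiv (𝓝 := lvlLoc q) (A := ResMod (ιv q) N)).symm.toEquiv

end Coef

end Fermat.Agent.S55.F1
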