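/-
S55 / FORMAL-F1, section Efface (task F1-5): every class of `H^1(Hom(M,T))` dies in
`H^1(Hom(Map(G/U,M),T))` for a suitable level `U`; monotonicity in `U`.
-/
import Fermat.Agent.S55.Formal.F1.Defs
import Fermat.Agent.S55.Coh.IndApi
import Fermat.Agent.S55.Coh.SetDefs

set_option autoImplicit false

namespace Fermat.Agent.S55.F1

section Efface

variable {G : Type} [Group G] (𝓝 : LevelSys G)
variable {M : Type} [AddCommGroup M] [DistribMulAction G M]
variable {T : Type} [AddCommGroup T] [DistribMulAction G T]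

/-- the fibre sum followed by the total sum is the total sum -/
theorem sum_push {U' U : Subgroup G} (h : U' ≤ U) [Finite (G ⧸ U')] [Finite (G ⧸ U)]
    (f : IndMod (G ⧸ U') M) :
    IndMod.sum (G := G) (G ⧸ U) M (IndMod.push M (cosetMap h) f) =
      IndMod.sum (G := G) (G ⧸ U') M f := IndMod.sum_push (cosetMap h) f

/-- the kernels of `H^n(Hom(M,T)) → H^n(Hom(M_U,T))` increase when `U` shrinks -/
theorem ker_pre_sum_mono {U' U : Subgroup G} (h : U' ≤ U) [Finite (G ⧸ U')] [Finite (G ⧸ U)]
    (n : ℕ) (x : Hsm 𝓝 (HomMod M T) n)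
    (hx : Hsm.map (pre T (IndMod.sum (G ⧸ U) M)) n x = 0) :
    Hsm.map (pre T (IndMod.sum (G ⧸ U') M)) n x = 0 := by
  rw [Hsm.map_comp' (ψ := pre T (IndMod.push M (cosetMap h)))
    (φ := pre T (IndMod.sum (G ⧸ U) M)) (χ := pre T (IndMod.sum (G ⧸ U') M)) ?_ n x, hx, map_zero]
  intro a
  ext f
  rw [pre_apply, pre_apply, pre_apply, sum_push]

/-- The differential in degree one. -/
theorem dd_one_apply' {A : Type} [AddCommGroup A] [DistribMulAction G A] (f : (Fin 1 → G) → A)
    (g h : G) :
    dd A 1 f ![g, h] = g • f (fun _ => h) - f (fun _ => g * h) + f (fun _ => g) := by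
  rw [dd_apply, Fin.sum_univ_two]
  have e1 : (fun i : Fin 1 => (![g, h] : Fin 2 → G) i.succ) = fun _ => h := by
    funext i; fin_cases i; rfl
  have e2 : Fin.contractNth (0 : Fin 2) (· * ·) (![g, h] : Fin 2 → G) = fun _ => g * h := by
    funext i; fin_cases i; rfl
  have e3 : Fin.contractNth (1 : Fin 2) (· * ·) (![g, h] : Fin 2 → G) = fun _ => g := by
    funext i; fin_cases i; rfl
  rw [e1, e2, e3]
  simp only [Matrix.cons_val_zero, Fin.val_zero, zero_add, pow_one, neg_smul, one_smul,
    Fin.val_one, Nat.reduceAdd, even_two, Even.neg_pow, one_pow]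
  abel

/-- every class of `H^1(Hom(M,T))` dies in `H^1(Hom(M_U,T))` for some level `U` -/
theorem exists_pre_sum_eq_zero (x : Hsm 𝓝 (HomMod M T) 1) :
    ∃ U ∈ 𝓝.carrier, ∃ _ : Finite (G ⧸ U), Hsm.map (pre T (IndMod.sum (G ⧸ U) M)) 1 x = 0 := by
  classical
  induction x using Hsm.induction_on with
  | h z =>
    obtain ⟨U, hU, hlev⟩ := z.2.1
    have hfi := 𝓝.finiteIndex U hU
    have hfin : Finite (G ⧸ U) := Subgroup.finite_quotient_of_finiteIndex
    refine ⟨U, hU, hfin, ?_⟩
    have := Fintype.ofFinite (G ⧸ U)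
    set c : G → HomMod M T := fun g => (z : (Fin 1 → G) → HomMod M T) (fun _ => g) with hc
    have hcoc : ∀ g h, c (g * h) = c g + g • c h := by
      intro g h
      have h0 := congrFun (dd_eq_zero_of_mem_Zsm z.2) ![g, h]
      rw [dd_one_apply'] at h0
      have h1 : g • c h - c (g * h) + c g = 0 := h0
      have h2 : c (g * h) = g • c h + c g := by
        rw [sub_add_eq_add_sub, sub_eq_zero] at h1
        exact h1.symm
      rw [h2, add_comm]
    let cbar : G ⧸ U → HomMod M T := fun x => c x.out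
    have hcbar : ∀ g : G, cbar (g : G ⧸ U) = c g := by
      intro g
      refine hlev _ _ fun _ => ?_
      exact QuotientGroup.eq.1 (QuotientGroup.out_eq' _)
    have hcbar' : ∀ (g : G) (x : G ⧸ U), g • cbar x = cbar (g • x) - c g := by
      intro g x
      induction x using QuotientGroup.induction_on with
      | H a =>
        have : g • (a : G ⧸ U) = ((g * a : G) : G ⧸ U) := rfl
        rw [this, hcbar, hcbar, hcoc, add_sub_cancel_left]
    let b : HomMod (IndMod (G ⧸ U) M) T := HomMod.of
      { toFun := fun f => ∑ x : G ⧸ U, cbar x (f x)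
        map_zero' := by simp
        map_add' := fun f f' => by simp [Finset.sum_add_distrib] }
    have hb : ∀ f, b f = ∑ x : G ⧸ U, cbar x (f x) := fun _ => rfl
    rw [Hsm.map_mk, Hsm.mk_eq_zero_iff, mem_Bsm_succ]
    refine ⟨fun _ => -b, mem_Csm_zero _, ?_⟩
    funext g
    rw [dd_zero_apply, Zsm.coe_map, cmap_apply]
    have hg : g = fun _ => g 0 := by
      funext i; fin_cases i; rfl
    have hz : (z : (Fin 1 → G) → HomMod M T) g = c (g 0) := by
      rw [hc]; exact congrArg _ hg
    rw [hz]
    generalize g 0 = γ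
    ext f
    change (γ • -b - -b) f = (pre T (IndMod.sum (G ⧸ U) M)) (c γ) f
    rw [pre_apply, smul_neg, neg_sub_neg]
    have h1 : (γ • b) f = b f - c γ (IndMod.sum (G := G) (G ⧸ U) M f) := by
      rw [HomMod.smul_apply, hb, Finset.smul_sum, IndMod.sum_eq_sum, map_sum, hb,
        ← Finset.sum_sub_distrib, ← Equiv.sum_comp (MulAction.toPerm γ)
          (fun y => cbar y (f y) - c γ (f y))]
      refine Finset.sum_congr rfl fun x _ => ?_
      rw [IndMod.smul_apply, inv_inv, ← HomMod.smul_apply, hcbar']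
      rfl
    have h2 : (b - γ • b) f = b f - (γ • b) f := rfl
    rw [h2, h1, sub_sub_cancel]

end Efface

end Fermat.Agent.S55.F1
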