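/-
S55 / FORMAL-F1, section HomFun (task F1-1, helper233): finiteness, smoothness and exactness of
`HomMod (-) T`.
-/
import Fermat.Agent.S55.Formal.F1.Defs
import Fermat.Agent.S55.Coh.Complex
import Fermat.Agent.S55.Coh.LES

set_option autoImplicit false

namespace Fermat.Agent.S55.F1

section HomFun

variable {G : Type} [Group G]
variable {A : Type} [AddCommGroup A] [DistribMulAction G A]
variable {B : Type} [AddCommGroup B] [DistribMulAction G B]
variable {C : Type} [AddCommGroup C] [DistribMulAction G C]
variable {T : Type} [AddCommGroup T] [DistribMulAction G T]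

omit [DistribMulAction G A] [DistribMulAction G T] in
theorem finite_homMod [Finite A] [Finite T] : Finite (HomMod A T) :=
  Finite.of_injective (fun f : HomMod A T => (f : A → T)) DFunLike.coe_injective

theorem smooth_homMod (𝓝 : LevelSys G) [Finite A] [Smooth 𝓝 A] [Smooth 𝓝 T] :
    Smooth 𝓝 (HomMod A T) where
  exists_fix f := by
    obtain ⟨N₁, hN₁, h₁⟩ := Smooth.exists_fix_of_finite (𝓝 := 𝓝) (Set.finite_univ (α := A))
    obtain ⟨N₂, hN₂, h₂⟩ := Smooth.exists_fix_of_finite (𝓝 := 𝓝) (Set.finite_range (f : A → T))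
    obtain ⟨N, hN, hle⟩ := 𝓝.directed N₁ hN₁ N₂ hN₂
    refine ⟨N, hN, fun n hn => ?_⟩
    ext a
    rw [HomMod.smul_apply, h₁ a (Set.mem_univ a) n⁻¹ (inv_mem (hle hn).1)]
    exact h₂ (f a) ⟨a, rfl⟩ n (hle hn).2

omit [DistribMulAction G A] [DistribMulAction G B] [DistribMulAction G T] in
/-- Extension of homomorphisms along an injection of groups killed by `p`. -/
theorem HomFun.exists_extension (p : ℕ) [Fact p.Prime] (φ : A →+ B) (hφ : Function.Injective φ)
    (hB : ∀ b : B, p • b = 0) (f : A →+ T) : ∃ f' : B →+ T, ∀ a, f' (φ a) = f a := by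
  have hA : ∀ a : A, p • a = 0 := fun a => hφ (by rw [map_nsmul, hB, map_zero])
  letI : Module (ZMod p) A := AddCommGroup.zmodModule hA
  letI : Module (ZMod p) B := AddCommGroup.zmodModule hB
  obtain ⟨r, hr⟩ := LinearMap.exists_leftInverse_of_injective (AddMonoidHom.toZModLinearMap p φ)
    (LinearMap.ker_eq_bot.mpr hφ)
  refine ⟨f.comp r.toAddMonoidHom, fun a => ?_⟩
  have h1 : r.toAddMonoidHom (φ a) = a := LinearMap.congr_fun hr a
  rw [AddMonoidHom.comp_apply, h1]

/-- `Hom(-, T)` is exact on groups killed by a prime `p`. -/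
theorem shortExact_pre (p : ℕ) [Fact p.Prime] {φ : A →+[G] B} {ψ : B →+[G] C}
    (h : ShortExact φ ψ) (hB : ∀ b : B, p • b = 0) :
    ShortExact (pre T ψ) (pre T φ) where
  inj := by
    intro f f' hff
    ext c
    obtain ⟨b, rfl⟩ := h.surj c
    exact DFunLike.congr_fun hff b
  exact := by
    intro f
    constructor
    · intro hf
      have hker : (ψ : B →+ C).ker ≤ (HomMod.toHom f).ker := by
        intro b hb
        obtain ⟨a, rfl⟩ := (h.exact b).1 hb
        exact DFunLike.congr_fun hf a
      refine ⟨HomMod.of ((ψ : B →+ C).liftOfRightInverse (Function.surjInv h.surj)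
        (Function.rightInverse_surjInv h.surj) ⟨HomMod.toHom f, hker⟩), ?_⟩
      ext b
      exact AddMonoidHom.liftOfRightInverse_comp_apply (ψ : B →+ C) (Function.surjInv h.surj)
        (Function.rightInverse_surjInv h.surj) ⟨HomMod.toHom f, hker⟩ b
    · rintro ⟨f', rfl⟩
      ext a
      rw [pre_apply, pre_apply, h.comp_eq_zero, map_zero]
      rfl
  surj := by
    intro f
    obtain ⟨f', hf'⟩ := HomFun.exists_extension p (φ : A →+ B) h.inj hB (HomMod.toHom f)
    exact ⟨HomMod.of f', by ext a; exact hf' a⟩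

theorem isCoef_homMod {S : Finset Nat.Primes} {p : ℕ} {N : Type} [AddCommGroup N]
    [DistribMulAction GQ N] (hN : IsCoef S p N) (hμ : IsCoef S p (Mu p)) :
    IsCoef S p (HomMod N (Mu p)) where
  finite := by
    have := hN.finite
    have := hμ.finite
    exact finite_homMod
  ptors := by
    intro f
    ext n
    have h1 : (p • f) n = p • f n := AddMonoidHom.nsmul_apply (HomMod.toHom f) p n
    rw [h1, hμ.ptors]
    rfl
  smooth := by
    have := hN.finite
    have := hN.smooth
    have := hμ.smooth
    exact smooth_homMod (lvlS S)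

end HomFun

end Fermat.Agent.S55.F1
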