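/-
S55 / FORMAL-F1, section Pair (task F1-3): `YtoHom`, `ZtoHom` are bijective and natural,
adjunction formula for the local pairings `Bq`.
-/
import Fermat.Agent.S55.Formal.F1.Defs

set_option autoImplicit false

namespace Fermat.Agent.S55.F1

section Inv

variable {G H : Type} [Group G] [Group H] (f : H →* G)
variable {N : Type} [AddCommGroup N] [DistribMulAction G N]
variable {T : Type} [AddCommGroup T] [DistribMulAction G T]

theorem eq_zero_of_homOfInv (y : inv0 H (ResMod f (HomMod N T))) (h : ∀ n, homOfInv f y n = 0) :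
    y = 0 := by
  apply Subtype.ext
  have h1 : undl f (y : ResMod f (HomMod N T)) = 0 := by
    ext n
    exact h (ResMod.toRes f n)
  exact h1

theorem homOfInv_surjective :
    Function.Surjective (homOfInv (N := N) (T := T) f) := by
  intro g
  let φ : HomMod N T := HomMod.of
    { toFun := fun n => (ResMod.toRes f).symm (g (ResMod.toRes f n))
      map_zero' := by rw [map_zero, map_zero, map_zero]
      map_add' := fun a b => by rw [map_add, map_add, map_add] }
  have hφ : ∀ h : H, h • (ResMod.toRes f φ) = ResMod.toRes f φ := by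
    intro h
    have h1 : f h • φ = φ := by
      ext n
      rw [HomMod.smul_apply]
      have h2 := map_smul g h (ResMod.toRes f ((f h)⁻¹ • n))
      rw [ResMod.smul_def, smul_inv_smul] at h2
      show f h • (ResMod.toRes f).symm (g (ResMod.toRes f ((f h)⁻¹ • n))) =
        (ResMod.toRes f).symm (g (ResMod.toRes f n))
      rw [h2]
      rfl
    rw [ResMod.smul_def, h1]
  refine ⟨⟨ResMod.toRes f φ, hφ⟩, ?_⟩
  ext n
  rfl

theorem homOfInv'_surjective :
    Function.Surjective (homOfInv' (G := G) (N := N) (T := T)) := by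
  intro g
  let φ : HomMod N T := HomMod.of (g : N →+ T)
  have hφ : ∀ h : G, h • φ = φ := by
    intro h
    ext n
    rw [HomMod.smul_apply]
    show h • g (h⁻¹ • n) = g n
    rw [← map_smul, smul_inv_smul]
  refine ⟨⟨φ, hφ⟩, ?_⟩
  ext n
  rfl

theorem H0equiv_res (A : Type) [AddCommGroup A] [DistribMulAction G A]
    (𝓝H : LevelSys H) (𝓝G : LevelSys G) (h : (𝓝G.comap f).Le 𝓝H) (x : Hsm 𝓝G A 0) :
    ((Hsm.H0equiv (Hsm.res A f 𝓝H 𝓝G h 0 x) : inv0 H (ResMod f A)) : ResMod f A) =
      ResMod.toRes f ((Hsm.H0equiv x : inv0 G A) : A) := by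
  induction x using Hsm.induction_on with
  | h z =>
    have h0 : (fun i : Fin 0 => f ((default : Fin 0 → H) i)) = (default : Fin 0 → G) :=
      Subsingleton.elim _ _
    show ResMod.toRes f (z.1 (fun i : Fin 0 => f ((default : Fin 0 → H) i))) =
      ResMod.toRes f (z.1 default)
    rw [h0]

end Inv

section Pair

variable {S : Finset Nat.Primes} {p : ℕ} (q : Nat.Primes)
variable (N : Type) [AddCommGroup N] [DistribMulAction GQ N]
variable {N' : Type} [AddCommGroup N'] [DistribMulAction GQ N']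

theorem eq_zero_of_YtoHom (y : Hloc q (HomMod N (Mu p)) 0) (h : ∀ n, YtoHom q N y n = 0) :
    y = 0 := by
  have h1 := eq_zero_of_homOfInv (ιv q) (Hsm.H0equiv y) h
  exact (AddEquiv.map_eq_zero_iff _).1 h1

theorem YtoHom_surjective : Function.Surjective (YtoHom (p := p) q N) := by
  intro g
  obtain ⟨y, hy⟩ := homOfInv_surjective (ιv q) g
  exact ⟨Hsm.H0equiv.symm y, by unfold YtoHom; rw [AddEquiv.apply_symm_apply, hy]⟩

theorem ZtoHom_surjective : Function.Surjective (ZtoHom (S := S) (p := p) N) := by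
  intro g
  obtain ⟨y, hy⟩ := homOfInv'_surjective g
  exact ⟨Hsm.H0equiv.symm y, by unfold ZtoHom; rw [AddEquiv.apply_symm_apply, hy]⟩

theorem YtoHom_locS (z : Hsm (lvlS S) (HomMod N (Mu p)) 0) (n : ResMod (ιv q) N) :
    YtoHom q N (locS S (HomMod N (Mu p)) q 0 z) n = ResMod.map (ιv q) (ZtoHom N z) n := by
  unfold YtoHom ZtoHom locS
  rw [homOfInv_apply, H0equiv_res]
  rfl

variable {N} in
theorem YtoHom_pre (φ : N →+[GQ] N') (y : Hloc q (HomMod N' (Mu p)) 0) (n : ResMod (ιv q) N) :
    YtoHom q N (Hsm.map (ResMod.map (ιv q) (pre (Mu p) φ)) 0 y) n =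
      YtoHom q N' y (ResMod.map (ιv q) φ n) := by
  induction y using Hsm.induction_on with
  | h z => rfl

variable {N} in
theorem Bq_adj (t : Hloc q (Mu p) 2 →+ ZMod p) (φ : N →+[GQ] N') (x : Hloc q N 2)
    (y : Hloc q (HomMod N' (Mu p)) 0) :
    Bq q N' t (Hsm.map (ResMod.map (ιv q) φ) 2 x) y =
      Bq q N t x (Hsm.map (ResMod.map (ιv q) (pre (Mu p) φ)) 0 y) := by
  rw [Bq_apply, Bq_apply, ← Hsm.map_comp]
  congr 1
  exact (DFunLike.congr_fun (Hsm.map_congr (fun n => YtoHom_pre q φ y n) 2) x).symm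

end Pair

end Fermat.Agent.S55.F1
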