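/-
S55 / FORMAL-F1, section ResNat (owner helper90): restriction commutes with `Hsm.map` and with the
connecting homomorphism, and is injective in degree zero.  The facts are those of
`Formal/ResNat.lean` (helper176), restated under the names of the F1 skeleton.
-/
import Fermat.Agent.S55.Formal.F1.Defs
import Fermat.Agent.S55.Formal.ResNat

set_option autoImplicit false

namespace Fermat.Agent.S55.F1

section ResNat

variable {G H : Type} [Group G] [Group H] (f : H →* G)
variable {𝓝H : LevelSys H} {𝓝G : LevelSys G} (hle : (𝓝G.comap f).Le 𝓝H)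
variable {A : Type} [AddCommGroup A] [DistribMulAction G A]
variable {B : Type} [AddCommGroup B] [DistribMulAction G B]
variable {C : Type} [AddCommGroup C] [DistribMulAction G C]

theorem res_map (φ : A →+[G] B) (n : ℕ) (x : Hsm 𝓝G A n) :
    Hsm.res B f 𝓝H 𝓝G hle n (Hsm.map φ n x) =
      Hsm.map (ResMod.map f φ) n (Hsm.res A f 𝓝H 𝓝G hle n x) :=
  Formal.res_map f hle φ n x

theorem shortExact_res {φ : A →+[G] B} {ψ : B →+[G] C} (h : ShortExact φ ψ) :
    ShortExact (ResMod.map f φ) (ResMod.map f ψ) :=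
  Formal.shortExact_res f h

theorem res_delta [Smooth 𝓝G B] [Smooth 𝓝H (ResMod f B)] {φ : A →+[G] B} {ψ : B →+[G] C}
    (h : ShortExact φ ψ) (n : ℕ) (x : Hsm 𝓝G C n) :
    Hsm.res A f 𝓝H 𝓝G hle (n + 1) (Hsm.delta h n x) =
      Hsm.delta (shortExact_res f h) n (Hsm.res C f 𝓝H 𝓝G hle n x) :=
  Formal.res_delta f hle h (shortExact_res f h) n x

theorem res_zero_injective : Function.Injective (Hsm.res A f 𝓝H 𝓝G hle 0) :=
  Formal.res_zero_injective f hle

end ResNat

end Fermat.Agent.S55.F1
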